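/-
S16lib / package TX (helper8): the ring of holomorphic, `h`-periodic functions on `ℍ` bounded at
`i∞`, and the `t`-expansion `qExpansion h` (`t = e^{2πiτ/h}`) as an injective ring homomorphism
into `ℂ⟦X⟧`.
-/
import Mathlib
import Fermat.Agent.ProgramR.QExp.Laurent

set_option autoImplicit false

noncomputable section

namespace Fermat.Agent.S16lib.TX

open UpperHalfPlane Function
open Fermat.Agent.ProgramR.QExp (IsHolPerBdd)

/-- The subring of holomorphic `h`-periodic functions bounded at `i∞`. -/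
def holRing (h : ℝ) : Subring (ℍ → ℂ) where
  carrier := {f | IsHolPerBdd h f}
  mul_mem' hf hg := hf.mul hg
  one_mem' := IsHolPerBdd.const h 1
  add_mem' hf hg := hf.add hg
  zero_mem' := IsHolPerBdd.const h 0
  neg_mem' hf := hf.neg

lemma mem_holRing {h : ℝ} {f : ℍ → ℂ} : f ∈ holRing h ↔ IsHolPerBdd h f := Iff.rfl

lemma const_mem_holRing (h : ℝ) (c : ℂ) : (fun _ => c) ∈ holRing h := IsHolPerBdd.const h c

lemma smul_mem_holRing {h : ℝ} {f : ℍ → ℂ} (c : ℂ) (hf : f ∈ holRing h) : c • f ∈ holRing h :=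
  (holRing h).mul_mem (const_mem_holRing h c) hf

/-- The `t`-expansion as a ring homomorphism. -/
def tExpHom (h : ℝ) (hh : 0 < h) : holRing h →+* PowerSeries ℂ where
  toFun f := qExpansion h f.1
  map_one' := qExpansion_one h
  map_mul' f g := qExpansion_mul (f.2.analyticAt hh) (g.2.analyticAt hh)
  map_zero' := qExpansion_zero h
  map_add' f g := qExpansion_add (f.2.analyticAt hh) (g.2.analyticAt hh)

@[simp] lemma tExpHom_apply (h : ℝ) (hh : 0 < h) (f : holRing h) :
    tExpHom h hh f = qExpansion h f.1 := rfl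

lemma tExpHom_injective (h : ℝ) (hh : 0 < h) : Function.Injective (tExpHom h hh) := by
  rw [injective_iff_map_eq_zero]
  intro f hf
  apply Subtype.ext
  exact (qExpansion_eq_zero_iff hh f.2.periodic f.2.holo f.2.bdd).mp hf

variable {h : ℝ}

lemma qExpansion_mul_of_mem (hh : 0 < h) {f g : ℍ → ℂ} (hf : f ∈ holRing h) (hg : g ∈ holRing h) :
    qExpansion h (f * g) = qExpansion h f * qExpansion h g :=
  qExpansion_mul (IsHolPerBdd.analyticAt hh hf) (IsHolPerBdd.analyticAt hh hg)

lemma qExpansion_add_of_mem (hh : 0 < h) {f g : ℍ → ℂ} (hf : f ∈ holRing h) (hg : g ∈ holRing h) :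
    qExpansion h (f + g) = qExpansion h f + qExpansion h g :=
  qExpansion_add (IsHolPerBdd.analyticAt hh hf) (IsHolPerBdd.analyticAt hh hg)

lemma qExpansion_sub_of_mem (hh : 0 < h) {f g : ℍ → ℂ} (hf : f ∈ holRing h) (hg : g ∈ holRing h) :
    qExpansion h (f - g) = qExpansion h f - qExpansion h g :=
  qExpansion_sub (IsHolPerBdd.analyticAt hh hf) (IsHolPerBdd.analyticAt hh hg)

lemma qExpansion_neg_of_mem (hh : 0 < h) {f : ℍ → ℂ} (hf : f ∈ holRing h) :
    qExpansion h (-f) = -qExpansion h f :=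
  qExpansion_neg (IsHolPerBdd.analyticAt hh hf)

lemma qExpansion_smul_of_mem (hh : 0 < h) {f : ℍ → ℂ} (hf : f ∈ holRing h) (c : ℂ) :
    qExpansion h (c • f) = c • qExpansion h f :=
  qExpansion_smul (IsHolPerBdd.analyticAt hh hf) c

lemma qExpansion_pow_of_mem (hh : 0 < h) {f : ℍ → ℂ} (hf : f ∈ holRing h) (n : ℕ) :
    qExpansion h (f ^ n) = qExpansion h f ^ n := by
  induction n with
  | zero => simp only [pow_zero]; exact qExpansion_one h
  | succ n ih =>
    rw [pow_succ, pow_succ, qExpansion_mul_of_mem hh ((holRing h).pow_mem hf n) hf, ih]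

lemma qExpansion_const (hh : 0 < h) (c : ℂ) :
    qExpansion h (fun _ : ℍ => c) = PowerSeries.C c := by
  have h1 : (fun _ : ℍ => c) = c • (1 : ℍ → ℂ) := by
    funext τ; simp
  rw [h1, qExpansion_smul_of_mem hh (holRing h).one_mem, qExpansion_one,
    PowerSeries.smul_eq_C_mul, mul_one]

lemma qExpansion_sum_of_mem (hh : 0 < h) {ι : Type*} (s : Finset ι) (f : ι → ℍ → ℂ)
    (hf : ∀ i ∈ s, f i ∈ holRing h) :
    qExpansion h (∑ i ∈ s, f i) = ∑ i ∈ s, qExpansion h (f i) := by
  classical
  induction s using Finset.induction_on with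
  | empty => simp only [Finset.sum_empty]; exact qExpansion_zero h
  | insert a s ha ih =>
    rw [Finset.sum_insert ha, Finset.sum_insert ha,
      qExpansion_add_of_mem hh (hf a (Finset.mem_insert_self a s))
        ((holRing h).sum_mem fun i hi => hf i (Finset.mem_insert_of_mem hi)),
      ih fun i hi => hf i (Finset.mem_insert_of_mem hi)]

lemma qExpansion_prod_of_mem (hh : 0 < h) {ι : Type*} (s : Finset ι) (f : ι → ℍ → ℂ)
    (hf : ∀ i ∈ s, f i ∈ holRing h) :
    qExpansion h (∏ i ∈ s, f i) = ∏ i ∈ s, qExpansion h (f i) := by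
  classical
  induction s using Finset.induction_on with
  | empty => simp only [Finset.prod_empty]; exact qExpansion_one h
  | insert a s ha ih =>
    rw [Finset.prod_insert ha, Finset.prod_insert ha,
      qExpansion_mul_of_mem hh (hf a (Finset.mem_insert_self a s))
        ((holRing h).prod_mem fun i hi => hf i (Finset.mem_insert_of_mem hi)),
      ih fun i hi => hf i (Finset.mem_insert_of_mem hi)]

/-- uniqueness: a function in `holRing h` with a given convergent `t`-expansion -/
lemma qExpansion_eq_mk_of_hasSum (hh : 0 < h) {f : ℍ → ℂ} (hf : f ∈ holRing h) {c : ℕ → ℂ}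
    (hsum : ∀ τ : ℍ, HasSum (fun m ↦ c m • Periodic.qParam h τ ^ m) (f τ)) :
    qExpansion h f = PowerSeries.mk c :=
  Fermat.Agent.ProgramR.QExp.qExpansion_eq_of_hasSum hh (IsHolPerBdd.analyticAt hh hf) hsum

lemma hasSum_qExpansion_of_mem (hh : 0 < h) {f : ℍ → ℂ} (hf : f ∈ holRing h) (τ : ℍ) :
    HasSum (fun m ↦ (qExpansion h f).coeff m • Periodic.qParam h τ ^ m) (f τ) :=
  hasSum_qExpansion hh hf.periodic hf.holo hf.bdd τ

end Fermat.Agent.S16lib.TX
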