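/-
S16lib / package TX (helper8): `t`-expansions (`t = e^{2πiτ/p}`) of the `SL₂(ℤ)`-conjugates of a
modular form on `Γ₀(p)`.
* `slash_mem_holRing`     : `F ∣[k] γ` is holomorphic, `p`-periodic and bounded at `i∞`.
* `qExpansion_nat_coeff`  : a `1`-periodic function has `t`-expansion `Σ a_n t^{pn}`.
* `qExpansion_slash_stRep_coeff` : the `t`-expansion of `F ∣ S T^j` is
  `p^{1-k} Σ a_n(F∣W) ζ^{jn} t^n`.
-/
import Fermat.Agent.S16lib.TX.Ring
import Fermat.Agent.S16lib.Op.Cosets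
import Fermat.Prelude.Thm_CongruenceSubgroup_one_mem_strictPeriods_Gamma0

set_option autoImplicit false

noncomputable section

namespace Fermat.Agent.S16lib.TX

open scoped MatrixGroups ModularForm
open UpperHalfPlane CongruenceSubgroup Matrix ModularForm Function
open Fermat.Agent.ProgramR.QExp (IsHolPerBdd)
open Fermat.Agent.S16lib.Op

/-- `γ T^p γ⁻¹ ∈ Γ₀(p)`. -/
lemma conj_T_pow_mem (p : ℕ) (g : SL(2, ℤ)) :
    g * ModularGroup.T ^ (p : ℤ) * g⁻¹ ∈ Gamma0 p := by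
  rw [mem_Gamma0_iff]
  refine ⟨-(g 1 0) ^ 2, ?_⟩
  rw [Matrix.SpecialLinearGroup.coe_mul, Matrix.SpecialLinearGroup.coe_mul,
    Matrix.SpecialLinearGroup.coe_inv, ModularGroup.coe_T_zpow, Matrix.adjugate_fin_two]
  simp [Matrix.mul_apply, Fin.sum_univ_two]
  ring

/-- slash by `T^n` is translation by `n` -/
lemma slash_T_zpow_apply (k : ℤ) (f : ℍ → ℂ) (n : ℤ) (τ : ℍ) :
    (f ∣[k] (ModularGroup.T ^ n)) τ = f ((n : ℝ) +ᵥ τ) := by
  rw [ModularForm.SL_slash_apply, UpperHalfPlane.modular_T_zpow_smul]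
  have : UpperHalfPlane.denom (ModularGroup.T ^ n : SL(2, ℤ)) τ = 1 := by
    rw [ModularGroup.denom_apply, ModularGroup.coe_T_zpow]
    simp
  rw [this, _root_.one_zpow, mul_one]

variable (p : ℕ) [NeZero p]

/-- Every `SL₂(ℤ)`-conjugate of a modular form on `Γ₀(p)` is holomorphic, `p`-periodic and bounded
at `i∞`. -/
theorem slash_mem_holRing {k : ℤ} (F : ModularForm (Gamma0 p) k) (γ : SL(2, ℤ)) :
    (⇑F ∣[k] γ) ∈ holRing (p : ℝ) where
  holo := (ModularForm.translate F (γ : GL (Fin 2) ℝ)).holo'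
  periodic := Fermat.Agent.ProgramR.QExp.periodic_comp_ofComplex_of_vadd fun τ => by
    have h1 : ((⇑F ∣[k] γ) ∣[k] (ModularGroup.T ^ (p : ℤ))) = ⇑F ∣[k] γ := by
      rw [← SlashAction.slash_mul]
      have h2 : γ * ModularGroup.T ^ (p : ℤ) = (γ * ModularGroup.T ^ (p : ℤ) * γ⁻¹) * γ := by group
      rw [h2, SlashAction.slash_mul]
      congr 1
      exact SlashInvariantFormClass.slash_action_eq F _ ⟨_, conj_T_pow_mem p γ, rfl⟩
    have h3 := congrFun h1 τ
    rw [slash_T_zpow_apply] at h3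
    exact_mod_cast h3
  bdd := ModularFormClass.bdd_at_infty_slash F γ

/-- A modular form on `Γ₀(p)` is `1`-periodic. -/
theorem coe_mem_holRing_one {k : ℤ} (F : ModularForm (Gamma0 p) k) : ⇑F ∈ holRing (1 : ℝ) where
  holo := F.holo'
  periodic := SlashInvariantFormClass.periodic_comp_ofComplex F
    (CongruenceSubgroup.one_mem_strictPeriods_Gamma0 p)
  bdd := ModularFormClass.bdd_at_infty F

/-- A level-one modular form is `1`-periodic. -/
theorem coe_mem_holRing_one_levelOne {k : ℤ} (E : ModularForm 𝒮ℒ k) : ⇑E ∈ holRing (1 : ℝ) where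
  holo := E.holo'
  periodic := SlashInvariantFormClass.periodic_comp_ofComplex E one_mem_strictPeriods_SL
  bdd := ModularFormClass.bdd_at_infty E

local notation "𝕢" => Periodic.qParam

lemma natCast_pos' : (0 : ℝ) < (p : ℝ) := Nat.cast_pos.mpr (NeZero.pos p)

omit [NeZero p] in
lemma holRing_one_le : holRing (1 : ℝ) ≤ holRing (p : ℝ) := by
  intro f hf
  refine ⟨hf.holo, ?_, hf.bdd⟩
  have := hf.periodic.nat_mul p
  simpa using this

lemma qParam_natCast_pow' (z : ℂ) : 𝕢 (p : ℝ) z ^ p = 𝕢 1 z := by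
  have hw' : (p : ℂ) ≠ 0 := Nat.cast_ne_zero.mpr (NeZero.ne p)
  rw [Periodic.qParam, Periodic.qParam, ← Complex.exp_nat_mul]
  congr 1
  push_cast
  field_simp

/-- The `t`-expansion of a `1`-periodic function is `Σ a_n t^{pn}`. -/
theorem qExpansion_nat_eq {f : ℍ → ℂ} (hf : f ∈ holRing (1 : ℝ)) :
    qExpansion (p : ℝ) f =
      PowerSeries.mk fun m => if p ∣ m then (qExpansion 1 f).coeff (m / p) else 0 := by
  apply qExpansion_eq_mk_of_hasSum (natCast_pos' p) (holRing_one_le p hf)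
  intro τ
  have h1 := hasSum_qExpansion_of_mem one_pos hf τ
  have hinj : Function.Injective fun n : ℕ => p * n :=
    fun a b hab => Nat.eq_of_mul_eq_mul_left (NeZero.pos p) hab
  rw [← hinj.hasSum_iff]
  · convert h1 using 2 with n
    simp only [Function.comp_apply, dvd_mul_right, if_true,
      Nat.mul_div_cancel_left _ (NeZero.pos p)]
    rw [pow_mul, qParam_natCast_pow']
  · intro m hm
    have : ¬ p ∣ m := fun ⟨n, hn⟩ => hm ⟨n, hn.symm⟩
    simp [this]

theorem qExpansion_nat_coeff {f : ℍ → ℂ} (hf : f ∈ holRing (1 : ℝ)) (m : ℕ) :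
    (qExpansion (p : ℝ) f).coeff m = if p ∣ m then (qExpansion 1 f).coeff (m / p) else 0 := by
  rw [qExpansion_nat_eq p hf, PowerSeries.coeff_mk]

theorem qExpansion_nat_coeff_mul {f : ℍ → ℂ} (hf : f ∈ holRing (1 : ℝ)) (n : ℕ) :
    (qExpansion (p : ℝ) f).coeff (p * n) = (qExpansion 1 f).coeff n := by
  rw [qExpansion_nat_coeff p hf, if_pos (dvd_mul_right p n), Nat.mul_div_cancel_left _ (NeZero.pos p)]

/-- the primitive `p`-th root of unity `e^{2πi/p}` -/
def zetaP : ℂ := Complex.exp (2 * Real.pi * Complex.I / p)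

lemma qParam_one_heckeMatrix_smul (j : ℕ) (τ : ℍ) :
    𝕢 1 ((ModularForm.heckeMatrix p j • τ : ℍ) : ℂ) = 𝕢 (p : ℝ) τ * zetaP p ^ j := by
  have hp : (p : ℂ) ≠ 0 := Nat.cast_ne_zero.mpr (NeZero.ne p)
  rw [ModularForm.coe_heckeMatrix_smul (NeZero.ne p), Periodic.qParam, Periodic.qParam, zetaP,
    ← Complex.exp_nat_mul, ← Complex.exp_add]
  congr 1
  push_cast
  field_simp

/-- **`t`-expansion of the conjugates**: the coefficient of `t^n` in `F ∣ S T^j` is
`p^{1-k} a_n(F∣W) ζ^{jn}`. -/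
theorem qExpansion_slash_stRep {k : ℤ} (F : ModularForm (Gamma0 p) k) (j : ℕ) :
    qExpansion (p : ℝ) (⇑F ∣[k] stRep j) = PowerSeries.mk fun n =>
      (p : ℂ) ^ (1 - k) * (qExpansion 1 ⇑(wSlash p F)).coeff n * zetaP p ^ (j * n) := by
  apply qExpansion_eq_mk_of_hasSum (natCast_pos' p) (slash_mem_holRing p F (stRep j))
  intro τ
  have h1 := hasSum_qExpansion_of_mem one_pos (coe_mem_holRing_one p (wSlash p F))
    (ModularForm.heckeMatrix p j • τ)
  rw [slash_stRep_apply p k ⇑F j τ, ← coe_wSlash]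
  have h2 := h1.mul_left ((p : ℂ) ^ (1 - k))
  have e : (fun n => (p : ℂ) ^ (1 - k) * ((qExpansion 1 ⇑(wSlash p F)).coeff n •
      𝕢 1 ((ModularForm.heckeMatrix p j • τ : ℍ) : ℂ) ^ n)) = fun n =>
      ((p : ℂ) ^ (1 - k) * (qExpansion 1 ⇑(wSlash p F)).coeff n * zetaP p ^ (j * n)) •
        𝕢 (p : ℝ) τ ^ n := by
    funext n
    rw [qParam_one_heckeMatrix_smul, mul_pow, ← pow_mul]
    simp only [smul_eq_mul]
    ring
  rw [e] at h2
  exact h2

end Fermat.Agent.S16lib.TX
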