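/-
S16lib / package TX (helper8): integrality and reduction of the `q`-expansions of the level-one
forms `esymmForm p F i`.

Given a subring `A ⊆ ℂ` and power series `P x ∈ A⟦t⟧` lifting the `t`-expansions of the `p+1`
conjugates, `qExpansion 1 (esymmForm p F i) = (esymmSeries p P i).map A.subtype`, and if a ring
hom `φ : A → B` sends every `P x` to a constant `v x`, then `esymmSeries` is sent to the constant
`e_i(v)`.  `conjSeries` builds the `P x` from the `q`-coefficients of `F` and `F∣W`.
-/
import Fermat.Agent.S16lib.TX.Esymm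

set_option autoImplicit false

noncomputable section

namespace Fermat.Agent.S16lib.TX

open scoped MatrixGroups ModularForm Manifold
open UpperHalfPlane CongruenceSubgroup Matrix ModularForm Function
open Fermat.Agent.S16lib.Op

variable (p : ℕ)

section Series

variable {A : Type*} [CommRing A]

/-- `e_i` of a family of power series indexed by `ℙ¹(𝔽_p)` (a series in `t`). -/
def esymmSeriesT (P : Option (Fin p) → PowerSeries A) (i : ℕ) : PowerSeries A :=
  ∑ t ∈ Finset.powersetCard i (Finset.univ : Finset (Option (Fin p))), ∏ x ∈ t, P x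

/-- the series in `q = t^p` obtained by keeping the coefficients of `t^{pn}` -/
def esymmSeries (P : Option (Fin p) → PowerSeries A) (i : ℕ) : PowerSeries A :=
  PowerSeries.mk fun n => (esymmSeriesT p P i).coeff (p * n)

lemma esymmSeriesT_map {B : Type*} [CommRing B] (φ : A →+* B) (P : Option (Fin p) → PowerSeries A)
    (i : ℕ) : (esymmSeriesT p P i).map φ = esymmSeriesT p (fun x => (P x).map φ) i := by
  simp only [esymmSeriesT, map_sum, map_prod]

lemma esymmSeries_map {B : Type*} [CommRing B] (φ : A →+* B) (P : Option (Fin p) → PowerSeries A)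
    (i : ℕ) : (esymmSeries p P i).map φ = esymmSeries p (fun x => (P x).map φ) i := by
  ext n
  rw [PowerSeries.coeff_map, esymmSeries, esymmSeries, PowerSeries.coeff_mk, PowerSeries.coeff_mk,
    ← esymmSeriesT_map, PowerSeries.coeff_map]

lemma esymmSeriesT_C (v : Option (Fin p) → A) (i : ℕ) :
    esymmSeriesT p (fun x => PowerSeries.C (v x)) i = PowerSeries.C
      (∑ t ∈ Finset.powersetCard i (Finset.univ : Finset (Option (Fin p))), ∏ x ∈ t, v x) := by
  simp only [esymmSeriesT, map_sum, map_prod]

lemma esymmSeries_C [NeZero p] (v : Option (Fin p) → A) (i : ℕ) :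
    esymmSeries p (fun x => PowerSeries.C (v x)) i = PowerSeries.C
      (∑ t ∈ Finset.powersetCard i (Finset.univ : Finset (Option (Fin p))), ∏ x ∈ t, v x) := by
  ext n
  rw [esymmSeries, PowerSeries.coeff_mk, esymmSeriesT_C, PowerSeries.coeff_C, PowerSeries.coeff_C]
  have : p * n = 0 ↔ n = 0 := by
    rw [mul_eq_zero]
    exact ⟨fun h => h.resolve_left (NeZero.ne p), Or.inr⟩
  simp only [this]

/-- **Reduction**: if `φ` maps every `P x` to the constant `v x`, it maps `esymmSeries` to the
constant `e_i(v)`. -/
theorem esymmSeries_map_of_const [NeZero p] {B : Type*} [CommRing B] (φ : A →+* B)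
    (P : Option (Fin p) → PowerSeries A) (v : Option (Fin p) → B)
    (hv : ∀ x, (P x).map φ = PowerSeries.C (v x)) (i : ℕ) :
    (esymmSeries p P i).map φ = PowerSeries.C
      (∑ t ∈ Finset.powersetCard i (Finset.univ : Finset (Option (Fin p))), ∏ x ∈ t, v x) := by
  rw [esymmSeries_map, ← esymmSeries_C]
  congr 1
  funext x
  exact hv x

/-- `e_i(c, u, …, u)` (`p` copies of `u`) as a `Multiset.esymm`. -/
lemma sum_powersetCard_option_eq_esymm (c u : A) (i : ℕ) :
    ∑ t ∈ Finset.powersetCard i (Finset.univ : Finset (Option (Fin p))),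
      ∏ x ∈ t, (Option.elim x c fun _ => u) = (c ::ₘ Multiset.replicate p u).esymm i := by
  rw [← Finset.esymm_map_val]
  congr 1
  have h1 : (Finset.univ : Finset (Option (Fin p))).val =
      none ::ₘ (Finset.univ : Finset (Fin p)).val.map some := rfl
  have h2 : Multiset.map ((fun x : Option (Fin p) => x.elim c fun _ => u) ∘ some)
      (Finset.univ : Finset (Fin p)).val = Multiset.replicate p u := by
    have h3 : ((fun x : Option (Fin p) => x.elim c fun _ => u) ∘ some) = fun _ => u := rfl
    rw [h3, Multiset.map_const', Finset.card_val, Finset.card_univ, Fintype.card_fin]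
  rw [h1, Multiset.map_cons, Multiset.map_map, h2]
  rfl

end Series

section Analytic

variable [Fact p.Prime] {k : ℤ} (F : ModularForm (Gamma0 p) k)

lemma conj_mem_holRing (x : Option (Fin p)) : conj p F x ∈ holRing (p : ℝ) := by
  cases x with
  | none => exact holRing_one_le p (coe_mem_holRing_one p F)
  | some j => exact slash_mem_holRing p F (stRep j)

/-- the `t`-expansion of `esymmForm` is `e_i` of the `t`-expansions of the conjugates -/
theorem qExpansion_esymmForm (i : ℕ) :
    qExpansion (p : ℝ) ⇑(esymmForm p F i) =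
      esymmSeriesT p (fun x => qExpansion (p : ℝ) (conj p F x)) i := by
  rw [coe_esymmForm, esymmSeriesT,
    qExpansion_sum_of_mem (natCast_pos' p) _ _ fun t _ =>
      (holRing (p : ℝ)).prod_mem fun x _ => conj_mem_holRing p F x]
  refine Finset.sum_congr rfl fun t _ => ?_
  exact qExpansion_prod_of_mem (natCast_pos' p) _ _ fun x _ => conj_mem_holRing p F x

/-- the `q`-expansion of `esymmForm` -/
theorem qExpansion_one_esymmForm (i : ℕ) :
    qExpansion 1 ⇑(esymmForm p F i) =
      esymmSeries p (fun x => qExpansion (p : ℝ) (conj p F x)) i := by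
  ext n
  rw [esymmSeries, PowerSeries.coeff_mk, ← qExpansion_esymmForm,
    qExpansion_nat_coeff_mul p (coe_mem_holRing_one_levelOne (esymmForm p F i))]

/-- **Integrality**: if the `t`-expansions of the conjugates have coefficients in a subring `A`,
so do the `q`-expansions of the level-one forms `esymmForm p F i`, with an explicit formula. -/
theorem qExpansion_one_esymmForm_eq_map (A : Subring ℂ) (P : Option (Fin p) → PowerSeries A)
    (hP : ∀ x, qExpansion (p : ℝ) (conj p F x) = (P x).map A.subtype) (i : ℕ) :
    qExpansion 1 ⇑(esymmForm p F i) = (esymmSeries p P i).map A.subtype := by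
  rw [qExpansion_one_esymmForm, esymmSeries_map]
  congr 1
  funext x
  exact hP x

end Analytic

section ConjSeries

variable {A : Type*} [CommRing A]

/-- The formal `t`-expansions of the `p+1` conjugates, from the `q`-coefficients `a n` of `F`,
`b n` of `F∣W`, a root of unity `ζ` and `pk = p^{1-k}`. -/
def conjSeries (ζ pk : A) (a b : ℕ → A) : Option (Fin p) → PowerSeries A
  | none => PowerSeries.mk fun m => if p ∣ m then a (m / p) else 0
  | some j => PowerSeries.mk fun n => pk * b n * ζ ^ ((j : ℕ) * n)

lemma conjSeries_map {B : Type*} [CommRing B] (φ : A →+* B) (ζ pk : A) (a b : ℕ → A)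
    (x : Option (Fin p)) :
    (conjSeries p ζ pk a b x).map φ = conjSeries p (φ ζ) (φ pk) (φ ∘ a) (φ ∘ b) x := by
  cases x with
  | none =>
    ext m
    simp only [conjSeries, PowerSeries.coeff_map, PowerSeries.coeff_mk, Function.comp_apply]
    split_ifs <;> simp
  | some j =>
    ext m
    simp only [conjSeries, PowerSeries.coeff_map, PowerSeries.coeff_mk, Function.comp_apply,
      map_mul, map_pow]

lemma conjSeries_none_of_zero [NeZero p] (ζ pk : A) (a b : ℕ → A) (h : ∀ n, 0 < n → a n = 0) :
    conjSeries p ζ pk a b none = PowerSeries.C (a 0) := by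
  ext m
  simp only [conjSeries, PowerSeries.coeff_mk, PowerSeries.coeff_C]
  by_cases hm : m = 0
  · subst hm; simp
  · rw [if_neg hm]
    split_ifs with hd
    · apply h
      exact Nat.div_pos (Nat.le_of_dvd (Nat.pos_of_ne_zero hm) hd) (NeZero.pos p)
    · rfl

lemma conjSeries_some_of_zero (ζ pk : A) (a b : ℕ → A) (h : ∀ n, 0 < n → b n = 0) (j : Fin p) :
    conjSeries p ζ pk a b (some j) = PowerSeries.C (pk * b 0) := by
  ext m
  simp only [conjSeries, PowerSeries.coeff_mk, PowerSeries.coeff_C]
  by_cases hm : m = 0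
  · subst hm; simp
  · rw [if_neg hm, h m (Nat.pos_of_ne_zero hm)]
    simp

/-- **Reduction of the conjugates**: if `φ` kills `a n` and `b n` for `n ≥ 1`, the conjugate series
reduce to the constants `φ (a 0)` resp. `φ pk * φ (b 0)`. -/
theorem conjSeries_map_of_zero [NeZero p] {B : Type*} [CommRing B] (φ : A →+* B) (ζ pk : A)
    (a b : ℕ → A) (ha : ∀ n, 0 < n → φ (a n) = 0) (hb : ∀ n, 0 < n → φ (b n) = 0)
    (x : Option (Fin p)) :
    (conjSeries p ζ pk a b x).map φ =
      PowerSeries.C (Option.elim x (φ (a 0)) fun _ => φ pk * φ (b 0)) := by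
  rw [conjSeries_map]
  cases x with
  | none => exact conjSeries_none_of_zero p _ _ _ _ ha
  | some j => exact conjSeries_some_of_zero p _ _ _ _ hb j

end ConjSeries

section Main

variable [Fact p.Prime] {k : ℤ} (F : ModularForm (Gamma0 p) k)

/-- The `t`-expansions of the conjugates are given by `conjSeries`. -/
theorem qExpansion_conj_eq_map (A : Subring ℂ) (ζ pk : A) (a b : ℕ → A)
    (hζ : (ζ : ℂ) = zetaP p) (hpk : (pk : ℂ) = (p : ℂ) ^ (1 - k))
    (ha : ∀ n, (qExpansion 1 ⇑F).coeff n = a n)
    (hb : ∀ n, (qExpansion 1 ⇑(wSlash p F)).coeff n = b n) (x : Option (Fin p)) :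
    qExpansion (p : ℝ) (conj p F x) = (conjSeries p ζ pk a b x).map A.subtype := by
  cases x with
  | none =>
    rw [conj_none, qExpansion_nat_eq p (coe_mem_holRing_one p F)]
    ext m
    simp only [conjSeries, PowerSeries.coeff_map, PowerSeries.coeff_mk]
    split_ifs
    · rw [ha]; rfl
    · simp
  | some j =>
    rw [conj_some, qExpansion_slash_stRep]
    ext m
    simp only [conjSeries, PowerSeries.coeff_map, PowerSeries.coeff_mk, map_mul, map_pow,
      Subring.coe_subtype, hζ, hpk, hb]

/-- **Main theorem of TX**: `q`-expansion of the level-one form `e_i(conjugates of F)` with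
coefficients in `A`, and its reduction along any ring hom killing the higher coefficients of `F`
and `F∣W`. -/
theorem qExpansion_one_esymmForm_conjSeries (A : Subring ℂ) (ζ pk : A) (a b : ℕ → A)
    (hζ : (ζ : ℂ) = zetaP p) (hpk : (pk : ℂ) = (p : ℂ) ^ (1 - k))
    (ha : ∀ n, (qExpansion 1 ⇑F).coeff n = a n)
    (hb : ∀ n, (qExpansion 1 ⇑(wSlash p F)).coeff n = b n) (i : ℕ) :
    qExpansion 1 ⇑(esymmForm p F i) =
      (esymmSeries p (conjSeries p ζ pk a b) i).map A.subtype :=
  qExpansion_one_esymmForm_eq_map p F A _ (qExpansion_conj_eq_map p F A ζ pk a b hζ hpk ha hb) i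

theorem esymmSeries_conjSeries_map {A B : Type*} [CommRing A] [CommRing B] (φ : A →+* B)
    (ζ pk : A) (a b : ℕ → A) (ha : ∀ n, 0 < n → φ (a n) = 0) (hb : ∀ n, 0 < n → φ (b n) = 0)
    (i : ℕ) :
    (esymmSeries p (conjSeries p ζ pk a b) i).map φ =
      PowerSeries.C ((φ (a 0) ::ₘ Multiset.replicate p (φ pk * φ (b 0))).esymm i) := by
  rw [esymmSeries_map_of_const p φ _ _ (conjSeries_map_of_zero p φ ζ pk a b ha hb),
    sum_powersetCard_option_eq_esymm]

end Main

end Fermat.Agent.S16lib.TX
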