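/-
S16lib / package TX (helper8): the conjugates `conj p F x` are compatible with the ring operations
on modular forms on `Γ₀(p)`; level-one forms restricted to `Γ₀(p)` have constant conjugates.
-/
import Fermat.Agent.S16lib.TX.Integral

set_option autoImplicit false

noncomputable section

namespace Fermat.Agent.S16lib.TX

open scoped MatrixGroups ModularForm Manifold
open UpperHalfPlane CongruenceSubgroup Matrix ModularForm Function
open Fermat.Agent.S16lib.Op

variable (p : ℕ)

lemma Gamma0_le_SL : (Gamma0 p : Subgroup (GL (Fin 2) ℝ)) ≤ 𝒮ℒ := Subgroup.map_le_range _ _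

/-- A level-one modular form, viewed as a modular form on `Γ₀(p)`. -/
def levelOneRestrict {k : ℤ} (E : ModularForm 𝒮ℒ k) : ModularForm (Gamma0 p) k where
  toFun := ⇑E
  slash_action_eq' γ hγ := SlashInvariantFormClass.slash_action_eq E γ (Gamma0_le_SL p hγ)
  holo' := E.holo'
  bdd_at_cusps' hc := E.bdd_at_cusps' (hc.mono (Gamma0_le_SL p))

@[simp] lemma coe_levelOneRestrict {k : ℤ} (E : ModularForm 𝒮ℒ k) :
    ⇑(levelOneRestrict p E) = ⇑E := rfl

lemma slash_levelOne {k : ℤ} (E : ModularForm 𝒮ℒ k) (γ : SL(2, ℤ)) : ⇑E ∣[k] γ = ⇑E :=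
  SlashInvariantFormClass.slash_action_eq E _ ⟨γ, rfl⟩

variable {k k₁ k₂ : ℤ}

@[simp] lemma conj_levelOneRestrict (E : ModularForm 𝒮ℒ k) (x : Option (Fin p)) :
    conj p (levelOneRestrict p E) x = ⇑E := by
  cases x with
  | none => rfl
  | some j => rw [conj_some, coe_levelOneRestrict, slash_levelOne]

lemma conj_mul (F₁ : ModularForm (Gamma0 p) k₁) (F₂ : ModularForm (Gamma0 p) k₂)
    (x : Option (Fin p)) : conj p (F₁.mul F₂) x = conj p F₁ x * conj p F₂ x := by
  cases x with
  | none => rfl
  | some j =>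
    rw [conj_some, conj_some, conj_some, ModularForm.coe_mul, ModularForm.mul_slash_SL2]

lemma conj_add (F₁ F₂ : ModularForm (Gamma0 p) k) (x : Option (Fin p)) :
    conj p (F₁ + F₂) x = conj p F₁ x + conj p F₂ x := by
  cases x with
  | none => rfl
  | some j => rw [conj_some, conj_some, conj_some, FunLike.coe_add, SlashAction.add_slash]

lemma conj_neg (F : ModularForm (Gamma0 p) k) (x : Option (Fin p)) :
    conj p (-F) x = -conj p F x := by
  cases x with
  | none => rfl
  | some j => rw [conj_some, conj_some, FunLike.coe_neg, SlashAction.neg_slash]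

lemma conj_sub (F₁ F₂ : ModularForm (Gamma0 p) k) (x : Option (Fin p)) :
    conj p (F₁ - F₂) x = conj p F₁ x - conj p F₂ x := by
  rw [sub_eq_add_neg, conj_add, conj_neg, sub_eq_add_neg]

lemma conj_smul (c : ℂ) (F : ModularForm (Gamma0 p) k) (x : Option (Fin p)) :
    conj p (c • F) x = c • conj p F x := by
  cases x with
  | none => rfl
  | some j => rw [conj_some, conj_some, FunLike.coe_smul, ModularForm.SL_smul_slash]

end Fermat.Agent.S16lib.TX
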