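/-
S16lib / package TX (helper8): elementary symmetric functions of the `SL₂(ℤ)`-conjugates of a
modular form on `Γ₀(p)` as level-one modular forms.
* `esymmFormQ ℋ f i : ModularForm ℋ (k * i)` (general `𝒢`, `ℋ`, over Mathlib's coset space).
* `conj p F : Option (Fin p) → ℍ → ℂ` (`none ↦ F`, `some j ↦ F ∣ S T^j`),
  `esymmForm p F i : ModularForm 𝒮ℒ (k * i)` and `coe_esymmForm`.
-/
import Fermat.Agent.S16lib.TX.Forms

set_option autoImplicit false

noncomputable section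

namespace Fermat.Agent.S16lib.TX

open scoped MatrixGroups ModularForm Manifold
open UpperHalfPlane CongruenceSubgroup Matrix ModularForm Function SlashInvariantForm
open Fermat.Agent.S16lib.Op

variable {𝒢 : Subgroup (GL (Fin 2) ℝ)} {k : ℤ}

/-- elementary symmetric function of the translates, over Mathlib's coset space -/
def esymmQ (ℋ : Subgroup (GL (Fin 2) ℝ)) [𝒢.IsFiniteRelIndex ℋ] (f : ModularForm 𝒢 k) (i : ℕ) :
    ℍ → ℂ :=
  let := Fintype.ofFinite (ℋ ⧸ 𝒢.subgroupOf ℋ)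
  ∑ t ∈ Finset.powersetCard i (Finset.univ : Finset (ℋ ⧸ 𝒢.subgroupOf ℋ)),
    ∏ q ∈ t, quotientFunc f q

lemma sum_powersetCard_prod_comp_perm {ι R : Type*} [Fintype ι] [CommRing R] (φ : ι → R)
    (σ : Equiv.Perm ι) (i : ℕ) :
    ∑ t ∈ Finset.powersetCard i (Finset.univ : Finset ι), ∏ q ∈ t, φ (σ q) =
      ∑ t ∈ Finset.powersetCard i (Finset.univ : Finset ι), ∏ q ∈ t, φ q := by
  classical
  have h1 : ∀ ψ : ι → R, ∑ t ∈ Finset.powersetCard i (Finset.univ : Finset ι), ∏ q ∈ t, ψ q =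
      MvPolynomial.aeval ψ (MvPolynomial.esymm ι ℤ i) := by
    intro ψ
    rw [MvPolynomial.esymm, map_sum]
    refine Finset.sum_congr rfl fun t _ => ?_
    rw [map_prod]
    simp
  rw [h1, h1 φ]
  conv_rhs => rw [← MvPolynomial.rename_esymm ι ℤ i σ, MvPolynomial.aeval_rename]
  rfl


lemma esymmQ_slash (ℋ : Subgroup (GL (Fin 2) ℝ)) [𝒢.IsFiniteRelIndex ℋ] [ℋ.HasDetOne]
    (f : ModularForm 𝒢 k) (i : ℕ) {h : GL (Fin 2) ℝ} (hh : h ∈ ℋ) :
    esymmQ ℋ f i ∣[k * i] h = esymmQ ℋ f i := by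
  let _ := Fintype.ofFinite (ℋ ⧸ 𝒢.subgroupOf ℋ)
  rw [esymmQ, SlashAction.sum_slash]
  have hdet : |(h.det : ℝ)| = 1 := by
    rw [Subgroup.HasDetOne.det_eq hh]; simp
  have key : ∀ t ∈ Finset.powersetCard i (Finset.univ : Finset (ℋ ⧸ 𝒢.subgroupOf ℋ)),
      (∏ q ∈ t, quotientFunc f q) ∣[k * i] h =
        ∏ q ∈ t, quotientFunc f ((⟨h, hh⟩ : ℋ)⁻¹ • q) := by
    intro t ht
    rw [← (Finset.mem_powersetCard.mp ht).2, ModularForm.prod_slash, hdet]
    simp only [_root_.one_zpow, one_smul]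
    exact Finset.prod_congr rfl fun q _ => quotientFunc_smul f hh q
  rw [Finset.sum_congr rfl key]
  exact sum_powersetCard_prod_comp_perm (quotientFunc f) (MulAction.toPerm (⟨h, hh⟩ : ℋ)⁻¹) i


lemma mdifferentiable_quotientFunc (ℋ : Subgroup (GL (Fin 2) ℝ))
    (f : ModularForm 𝒢 k) (q : ℋ ⧸ 𝒢.subgroupOf ℋ) :
    MDifferentiable 𝓘(ℂ) 𝓘(ℂ) (quotientFunc f q) := by
  induction q using Quotient.inductionOn with
  | h r => exact (ModularForm.translate f r.val⁻¹).holo'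

/-- The `i`-th elementary symmetric function of the `ℋ`-translates of a modular form on `𝒢`,
as a modular form on `ℋ` of weight `k * i`. -/
def esymmFormQ (ℋ : Subgroup (GL (Fin 2) ℝ)) [𝒢.IsFiniteRelIndex ℋ] [ℋ.HasDetOne]
    (f : ModularForm 𝒢 k) (i : ℕ) : ModularForm ℋ (k * i) where
  toFun := esymmQ ℋ f i
  slash_action_eq' h hh := esymmQ_slash ℋ f i hh
  holo' := by
    let _ := Fintype.ofFinite (ℋ ⧸ 𝒢.subgroupOf ℋ)
    change MDifferentiable 𝓘(ℂ) 𝓘(ℂ) (∑ t ∈ Finset.powersetCard i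
      (Finset.univ : Finset (ℋ ⧸ 𝒢.subgroupOf ℋ)), ∏ q ∈ t, quotientFunc f q)
    exact MDifferentiable.sum fun t _ => MDifferentiable.prod fun q _ =>
      mdifferentiable_quotientFunc ℋ f q
  bdd_at_cusps' h γ := by
    rintro rfl
    let _ := Fintype.ofFinite (ℋ ⧸ 𝒢.subgroupOf ℋ)
    change IsBoundedAtImInfty ((∑ t ∈ Finset.powersetCard i
      (Finset.univ : Finset (ℋ ⧸ 𝒢.subgroupOf ℋ)), ∏ q ∈ t, quotientFunc f q) ∣[k * i] γ)
    rw [IsBoundedAtImInfty, Filter.BoundedAtFilter, SlashAction.sum_slash, Finset.sum_fn]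
    refine .fun_sum fun t ht => ?_
    rw [← (Finset.mem_powersetCard.mp ht).2, ModularForm.prod_slash]
    apply Asymptotics.IsBigO.const_smul_left
    rw [show (1 : ℍ → ℝ) = (fun x ↦ ∏ _i ∈ t, (1 : ℝ)) by ext; simp, Finset.prod_fn]
    refine .finsetProd fun q _ => ?_
    induction q using Quotient.inductionOn with
    | h r =>
      refine (ModularForm.translate f _).bdd_at_cusps' ?_ γ rfl
      simpa using h.of_isFiniteRelIndex_conj r.2


lemma sum_powersetCard_prod_eq_aeval {ι R : Type*} [Fintype ι] [CommRing R] (ψ : ι → R) (i : ℕ) :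
    ∑ t ∈ Finset.powersetCard i (Finset.univ : Finset ι), ∏ q ∈ t, ψ q =
      MvPolynomial.aeval ψ (MvPolynomial.esymm ι ℤ i) := by
  rw [MvPolynomial.esymm, map_sum]
  refine Finset.sum_congr rfl fun t _ => ?_
  rw [map_prod]
  simp

lemma sum_powersetCard_prod_comp_equiv {ι κ R : Type*} [Fintype ι] [Fintype κ] [CommRing R]
    (φ : κ → R) (e : ι ≃ κ) (i : ℕ) :
    ∑ t ∈ Finset.powersetCard i (Finset.univ : Finset ι), ∏ q ∈ t, φ (e q) =
      ∑ t ∈ Finset.powersetCard i (Finset.univ : Finset κ), ∏ q ∈ t, φ q := by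
  rw [sum_powersetCard_prod_eq_aeval, sum_powersetCard_prod_eq_aeval φ]
  conv_rhs => rw [← MvPolynomial.rename_esymm ι ℤ i e, MvPolynomial.aeval_rename]
  rfl

variable (p : ℕ) (F : ModularForm (Gamma0 p) k)

/-- the `p+1` conjugates of `F`, indexed by `ℙ¹(𝔽_p)` -/
def conj : Option (Fin p) → ℍ → ℂ
  | none => ⇑F
  | some j => ⇑F ∣[k] stRep j

@[simp] lemma conj_none : conj p F none = ⇑F := rfl
@[simp] lemma conj_some (j : Fin p) : conj p F (some j) = ⇑F ∣[k] stRep j := rfl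

lemma quotientFunc_cosetMap (x : Option (Fin p)) :
    quotientFunc F (cosetMap p x) = conj p F x := by
  cases x with
  | none =>
    rw [cosetMap]
    change quotientFunc F ⟦slElt 1⟧ = _
    rw [quotientFunc_mk]
    simp [slElt]
  | some j =>
    rw [cosetMap]
    change quotientFunc F ⟦slElt (stRep j)⁻¹⟧ = _
    rw [quotientFunc_mk]
    simp [slElt]
    rfl

variable [Fact p.Prime]

/-- The `i`-th elementary symmetric function of the conjugates of `F`, a level-one form of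
weight `k * i`. -/
def esymmForm (i : ℕ) : ModularForm 𝒮ℒ (k * i) := esymmFormQ 𝒮ℒ F i

theorem coe_esymmForm (i : ℕ) :
    ⇑(esymmForm p F i) = ∑ t ∈ Finset.powersetCard i (Finset.univ : Finset (Option (Fin p))),
      ∏ x ∈ t, conj p F x := by
  let _ : Fintype (𝒮ℒ ⧸ (Gamma0 p : Subgroup (GL (Fin 2) ℝ)).subgroupOf 𝒮ℒ) := Fintype.ofFinite _
  change ∑ t ∈ Finset.powersetCard i (Finset.univ : Finset
    (𝒮ℒ ⧸ (Gamma0 p : Subgroup (GL (Fin 2) ℝ)).subgroupOf 𝒮ℒ)), ∏ q ∈ t, quotientFunc F q = _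
  rw [← sum_powersetCard_prod_comp_equiv (quotientFunc F)
    (Equiv.ofBijective (cosetMap p) (cosetMap_bijective p)) i]
  refine Finset.sum_congr rfl fun t _ => Finset.prod_congr rfl fun x _ => ?_
  exact quotientFunc_cosetMap p F x

end Fermat.Agent.S16lib.TX
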